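import Mathlib.Tactic.Ring
import Mathlib.Tactic.LinearCombination
import Mathlib.Algebra.Field.Basic

/-!
# Polynomial identities on the model `y² + (x³+x²+1) y = x² + x` of `X₁(13)`

Generated by exact polynomial division; every identity is checked by `ring`.
-/

set_option autoImplicit false
set_option maxRecDepth 4000

namespace Fermat.Agent.Mazur.Thirteen.Model

variable {R : Type*} [CommRing R] (x y : R)

/-- Auxiliary polynomial. -/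
def A (x : R) : R :=
  x^3 + x^2 + 1

/-- Auxiliary polynomial. -/
def K (x : R) : R :=
  x^3 + 4*x^2 + x - 1

/-- Auxiliary polynomial. -/
def w (x y : R) : R :=
  x^3 + x^2 + 2*y + 1

/-- Auxiliary polynomial. -/
def bn (x y : R) : R :=
  x^7*y + x^6*y - x^6 - x^5*y - x^5 + x^4*y + x^4 + 2*x^3*y - x^2*y - x^2

/-- Auxiliary polynomial. -/
def cn (x y : R) : R :=
  x^4*y + x^3*y - x^3 - x^2*y - x^2

/-- Auxiliary polynomial. -/
def A1n (x y : R) : R :=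
  -x^4*y - x^3*y + x^3 + x^2*y + 2*x^2 + 2*x + 1

/-- Auxiliary polynomial. -/
def L (x y : R) : R :=
  -x^18*y - 8*x^17*y + x^17 - 25*x^16*y + 8*x^16 - 40*x^15*y + 25*x^15 - 52*x^14*y + 39*x^14 -
  108*x^13*y + 44*x^13 - 191*x^12*y + 83*x^12 - 186*x^11*y + 152*x^11 - 164*x^10*y + 143*x^10 -
  272*x^9*y + 88*x^9 - 303*x^8*y + 138*x^8 - 150*x^7*y + 180*x^7 - 110*x^6*y + 77*x^6 -
  160*x^5*y + 8*x^5 - 83*x^4*y + 40*x^4 - 10*x^3*y + 35*x^3 - 12*x^2*y + 2*x^2 - 8*x*y - 4*x -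
  2*y - 1

/-- Auxiliary polynomial. -/
def Cn (x : R) : R :=
  x^18 + 14*x^17 + 82*x^16 + 264*x^15 + 515*x^14 + 626*x^13 + 456*x^12 + 156*x^11 - 20*x^10 +
  10*x^9 + 189*x^8 + 324*x^7 + 235*x^6 + 32*x^5 - 65*x^4 - 40*x^3 - 3*x^2 + 4*x + 1

/-- Auxiliary polynomial. -/
def B2 (x y : R) : R :=
  -x^11*y - 7*x^10*y + x^10 - 17*x^9*y + 7*x^9 - 18*x^8*y + 17*x^8 - 11*x^7*y + 17*x^7 - 18*x^6*y
  + 4*x^6 - 32*x^5*y + x^5 - 19*x^4*y + 16*x^4 + 6*x^3*y + 22*x^3 + 6*x^2*y + 12*x^2 + 4*x + 1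

/-- Auxiliary polynomial. -/
def B22 (x y : R) : R :=
  -x^25*y - 15*x^24*y + x^24 - 97*x^23*y + 15*x^23 - 358*x^22*y + 97*x^22 - 853*x^21*y + 357*x^21
  - 1476*x^20*y + 838*x^20 - 2256*x^19*y + 1379*x^19 - 3617*x^18*y + 1899*x^18 - 5505*x^17*y +
  2780*x^17 - 6661*x^16*y + 4140*x^16 - 6500*x^15*y + 4845*x^15 - 6603*x^14*y + 3993*x^14 -
  7562*x^13*y + 3012*x^13 - 6956*x^12*y + 3436*x^12 - 4039*x^11*y + 3704*x^11 - 1959*x^10*y +
  1972*x^10 - 2108*x^9*y - 85*x^9 - 2153*x^8*y - 238*x^8 - 1062*x^7*y + 674*x^7 - 136*x^6*y +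
  992*x^6 + 120*x^5*y + 694*x^5 + 118*x^4*y + 352*x^4 + 60*x^3*y + 140*x^3 + 12*x^2*y + 40*x^2
  + 8*x + 1

/-- Auxiliary polynomial. -/
def C6 (x y : R) : R :=
  x^39*y + 23*x^38*y - x^38 + 241*x^37*y - 23*x^37 + 1530*x^36*y - 241*x^36 + 6623*x^35*y -
  1529*x^35 + 21014*x^34*y - 6600*x^34 + 52076*x^33*y - 20773*x^33 + 108271*x^32*y - 50547*x^32
  + 202884*x^31*y - 101672*x^31 + 355148*x^30*y - 182133*x^30 + 573375*x^29*y - 304820*x^29 +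
  838205*x^28*y - 473012*x^28 + 1125352*x^27*y - 661339*x^27 + 1430347*x^26*y - 835775*x^26 +
  1724918*x^25*y - 990892*x^25 + 1926676*x^24*y - 1123810*x^24 + 1986693*x^23*y - 1187048*x^23
  + 1945697*x^22*y - 1140650*x^22 + 1838728*x^21*y - 1024013*x^21 + 1655143*x^20*y -
  899528*x^20 + 1421495*x^19*y - 780280*x^19 + 1184699*x^18*y - 662814*x^18 + 951074*x^17*y -
  545427*x^17 + 743325*x^16*y - 413134*x^16 + 592969*x^15*y - 284042*x^15 + 453201*x^14*y -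
  205279*x^14 + 278434*x^13*y - 161239*x^13 + 126109*x^12*y - 95266*x^12 + 54084*x^11*y -
  17250*x^11 + 29766*x^10*y + 19335*x^10 + 7533*x^9*y + 11492*x^9 - 9915*x^8*y - 2079*x^8 -
  11007*x^7*y - 3147*x^7 - 4170*x^6*y + 264*x^6 - 60*x^5*y + 1113*x^5 + 489*x^4*y + 396*x^4 +
  162*x^3*y - 22*x^3 + 18*x^2*y - 48*x^2 - 12*x - 1

/-- Auxiliary polynomial. -/
def WL (x y : R) : R :=
  x^21*y + 9*x^20*y - x^20 + 33*x^19*y - 9*x^19 + 66*x^18*y - 33*x^18 + 102*x^17*y - 65*x^17 +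
  201*x^16*y - 93*x^16 + 389*x^15*y - 168*x^15 + 507*x^14*y - 324*x^14 + 546*x^13*y - 415*x^13
  + 793*x^12*y - 386*x^12 + 1065*x^11*y - 494*x^11 + 903*x^10*y - 689*x^10 + 708*x^9*y -
  561*x^9 + 849*x^8*y - 297*x^8 + 753*x^7*y - 312*x^7 + 357*x^6*y - 334*x^6 + 198*x^5*y -
  141*x^5 + 183*x^4*y - 6*x^4 + 90*x^3*y - 10*x^3 + 18*x^2*y - 19*x^2 - 8*x - 1

/-- Auxiliary polynomial. -/
def Qn (x y : R) : R :=
  -x^25*y - 15*x^24*y + x^24 - 97*x^23*y + 15*x^23 - 358*x^22*y + 97*x^22 - 853*x^21*y + 357*x^21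
  - 1475*x^20*y + 838*x^20 - 2213*x^19*y + 1378*x^19 - 3311*x^18*y + 1856*x^18 - 4550*x^17*y +
  2474*x^17 - 5068*x^16*y + 3186*x^16 - 4781*x^15*y + 3295*x^15 - 4432*x^14*y + 2580*x^14 -
  3877*x^13*y + 1795*x^13 - 2662*x^12*y + 1300*x^12 - 1387*x^11*y + 781*x^11 - 617*x^10*y +
  273*x^10 - 211*x^9*y + 20*x^9 - 20*x^8*y - 30*x^8 + 27*x^7*y - 19*x^7 + 19*x^6*y - 6*x^6 +
  6*x^5*y - x^5 + x^4*y

/-- Auxiliary polynomial. -/
def B3 (x y : R) : R :=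
  x^27*y + 5*x^26*y - x^26 + 7*x^25*y - 5*x^25 + 3*x^24*y - 7*x^24 + 20*x^23*y - 2*x^23 +
  53*x^22*y - 15*x^22 + 23*x^21*y - 46*x^21 + x^20*y - 21*x^20 + 111*x^19*y + 13*x^19 +
  111*x^18*y - 69*x^18 - 52*x^17*y - 93*x^17 + 39*x^16*y + 41*x^16 + 174*x^15*y + 19*x^15 -
  17*x^14*y - 105*x^14 - 69*x^13*y - 17*x^13 + 82*x^12*y + 62*x^12 + 31*x^11*y - 16*x^11 -
  38*x^10*y - 30*x^10 + 3*x^9*y + 10*x^9 + 9*x^8*y + 7*x^8 - x^7*y - 2*x^7 - x^6*y - x^6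

/-- Auxiliary polynomial. -/
def L2 (x y : R) : R :=
  -x^39*y - 17*x^38*y + x^38 - 130*x^37*y + 17*x^37 - 595*x^36*y + 130*x^36 - 1867*x^35*y +
  594*x^35 - 4563*x^34*y + 1850*x^34 - 10066*x^33*y + 4433*x^33 - 21625*x^32*y + 9472*x^32 -
  42940*x^31*y + 19776*x^31 - 75356*x^30*y + 38523*x^30 - 123196*x^29*y + 65998*x^29 -
  199504*x^28*y + 103899*x^28 - 307249*x^27*y + 162334*x^27 - 427889*x^26*y + 244185*x^26 -
  565404*x^25*y + 329821*x^25 - 749377*x^24*y + 414705*x^24 - 941178*x^23*y + 526456*x^23 -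
  1066876*x^22*y + 644506*x^22 - 1171208*x^21*y + 700102*x^21 - 1303706*x^20*y + 715957*x^20 -
  1340971*x^19*y + 759308*x^19 - 1232287*x^18*y + 761607*x^18 - 1134676*x^17*y + 653151*x^17 -
  1059855*x^16*y + 540002*x^16 - 868328*x^15*y + 483312*x^15 - 632334*x^14*y + 386900*x^14 -
  488108*x^13*y + 246404*x^13 - 370820*x^12*y + 160395*x^12 - 227355*x^11*y + 121632*x^11 -
  125583*x^10*y + 73023*x^10 - 79128*x^9*y + 29671*x^9 - 45555*x^8*y + 13704*x^8 - 18918*x^7*y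
  + 9156*x^7 - 6888*x^6*y + 4011*x^6 - 3120*x^5*y + 672*x^5 - 1302*x^4*y - 12*x^4 - 324*x^3*y +
  58*x^3 - 36*x^2*y + 48*x^2 + 12*x + 1

/-- The defining equation of the model. -/
def OnModel (x y : R) : Prop := y ^ 2 + A x * y - x ^ 2 - x = 0

variable {x y}

theorem b2n_eq (h : OnModel x y) :
    A1n x y ^ 2 - 4 * bn x y * (x + 1) ^ 3 = B2 x y := by
  simp only [OnModel, A, bn, B2, A1n] at *
  linear_combination
    (x^8 + 2*x^7 - x^6 - 2*x^5 + x^4) * h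

theorem b2n_sq (h : OnModel x y) :
    B2 x y ^ 2 = B22 x y := by
  simp only [OnModel, A, B22, B2] at *
  linear_combination
    (x^22 + 14*x^21 + 83*x^20 + 274*x^19 + 563*x^18 + 802*x^17 + 1014*x^16 + 1494*x^15 + 2111*x^14
      + 2098*x^13 + 1424*x^12 + 1150*x^11 + 1360*x^10 + 868*x^9 - 239*x^8 - 612*x^7 - 192*x^6 +
      72*x^5 + 36*x^4) * h

theorem c6n_eq (h : OnModel x y) :
    -(B22 x y * B2 x y) - 36 * (B2 x y * A1n x y * bn x y) * (x + 1) ^ 5 - 216 * bn x y ^ 2 * (x + 1) ^ 10 = C6 x y := by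
  simp only [OnModel, A, B22, C6, bn, B2, A1n] at *
  linear_combination
    (-x^36 - 22*x^35 - 219*x^34 - 1310*x^33 - 5289*x^32 - 15462*x^31 - 34866*x^30 - 65498*x^29 -
      111390*x^28 - 36*x^27*y - 178406*x^27 - 504*x^26*y - 262320*x^26 - 3060*x^25*y -
      343470*x^25 - 10584*x^24*y - 407376*x^24 - 23112*x^23*y - 455764*x^23 - 34344*x^22*y -
      481072*x^22 - 40968*x^21*y - 464602*x^21 - 53136*x^20*y - 413059*x^20 - 74196*x^19*y -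
      346066*x^19 - 78048*x^18*y - 263571*x^18 - 48636*x^17*y - 184154*x^17 - 21564*x^16*y -
      146892*x^16 - 24660*x^15*y - 131034*x^15 - 22068*x^14*y - 87441*x^14 + 11232*x^13*y -
      41994*x^13 + 33840*x^12*y - 38849*x^12 + 18036*x^11*y - 47358*x^11 - 4284*x^10*y -
      28222*x^10 - 7056*x^9*y - 988*x^9 - 1332*x^8*y + 7390*x^8 + 648*x^7*y + 3228*x^7 +
      216*x^6*y + 96*x^6 - 216*x^5 - 36*x^4) * h

theorem wL (h : OnModel x y) :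
    w x y * L x y = WL x y := by
  simp only [OnModel, A, WL, L, w] at *
  linear_combination
    (-2*x^18 - 16*x^17 - 50*x^16 - 80*x^15 - 104*x^14 - 216*x^13 - 382*x^12 - 372*x^11 - 328*x^10 -
      544*x^9 - 606*x^8 - 300*x^7 - 220*x^6 - 320*x^5 - 166*x^4 - 20*x^3 - 24*x^2 - 16*x - 4) * h

theorem qn_eq (h : OnModel x y) :
    B22 x y + 8 * A1n x y ^ 3 * (x + 1) ^ 2 - 27 * bn x y * (x + 1) ^ 7 - 9 * B2 x y * A1n x y * (x + 1) ^ 2 = Qn x y := by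
  simp only [OnModel, A, B22, bn, B2, Qn, A1n] at *
  linear_combination
    (-x^17 - 42*x^16 - 264*x^15 - 8*x^14*y - 690*x^14 - 40*x^13*y - 851*x^13 - 56*x^12*y - 463*x^12
      + 16*x^11*y - 313*x^11 + 80*x^10*y - 770*x^10 + 16*x^9*y - 694*x^9 - 40*x^8*y + 164*x^8 -
      8*x^7*y + 521*x^7 + 8*x^6*y + 169*x^6 - 60*x^5 - 30*x^4) * h

theorem bn_cube (h : OnModel x y) :
    bn x y ^ 3 = B3 x y := by
  simp only [OnModel, A, bn, B3] at *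
  linear_combination
    (-x^24 - 4*x^23 - 3*x^22 + x^21*y + x^21 + 3*x^20*y - 16*x^20 - 30*x^19 - 2*x^18*y + 9*x^18 +
      12*x^17*y + 4*x^17 + 9*x^16*y - 72*x^16 - 16*x^15*y - 18*x^15 + 9*x^14*y + 59*x^14 +
      27*x^13*y - 45*x^13 - 20*x^12*y - 57*x^12 - 9*x^11*y + 49*x^11 + 24*x^10*y + 9*x^10 -
      7*x^9*y - 31*x^9 - 9*x^8*y + 7*x^8 + 6*x^7*y + 6*x^7 - x^6*y - 2*x^6) * h

theorem L_sq (h : OnModel x y) :
    L x y ^ 2 = L2 x y := by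
  simp only [OnModel, A, L2, L] at *
  linear_combination
    (x^36 + 16*x^35 + 114*x^34 + 480*x^33 + 1369*x^32 + 3048*x^31 + 6310*x^30 + 12988*x^29 +
      24198*x^28 + 38980*x^27 + 59566*x^26 + 92468*x^25 + 133243*x^24 + 168584*x^23 +
      207734*x^22 + 264108*x^21 + 304800*x^20 + 306980*x^19 + 315912*x^18 + 336432*x^17 +
      304863*x^16 + 241500*x^15 + 213664*x^14 + 186344*x^13 + 123514*x^12 + 76056*x^11 +
      59140*x^10 + 38296*x^9 + 16341*x^8 + 7860*x^7 + 5092*x^6 + 2208*x^5 + 636*x^4 + 232*x^3 +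
      112*x^2 + 32*x + 4) * h

theorem c6n_factor_aux (h : OnModel x y) : C6 x y = WL x y * Cn x := by
  simp only [OnModel, A, C6, WL, Cn] at *
  linear_combination
    (0) * h

theorem disc_factor_aux (h : OnModel x y) : B3 x y * Qn x y = -(L2 x y * K x * x ^ 13) := by
  simp only [OnModel, A, B3, Qn, L2, K] at *
  linear_combination
    (-x^52 - 20*x^51 - 179*x^50 - 951*x^49 - 3387*x^48 - 8890*x^47 - 19391*x^46 - 39907*x^45 -
      79412*x^44 - 142450*x^43 - 226696*x^42 - 345514*x^41 - 523701*x^40 - 734458*x^39 -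
      922845*x^38 - 1130385*x^37 - 1400382*x^36 - 1582554*x^35 - 1584524*x^34 - 1602260*x^33 -
      1659523*x^32 - 1481471*x^31 - 1148081*x^30 - 977551*x^29 - 840747*x^28 - 542091*x^27 -
      299487*x^26 - 226413*x^25 - 152079*x^24 - 52115*x^23 - 13968*x^22 - 12980*x^21 -
      5648*x^20 + 578*x^19 + 587*x^18 + 31*x^17 + 275*x^16 + 334*x^15 + 144*x^14 + 11*x^13 -
      16*x^12 - 7*x^11 - x^10) * h

end Fermat.Agent.Mazur.Thirteen.Model
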