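import Fermat.Agent.Mazur.Thirteen.Model
import Mathlib

/-!
# From the parameters `(r, s)` of a point of order 13 to the Hauptmodul of `X₀(13)`
-/

set_option autoImplicit false

namespace Fermat.Agent.Mazur.Thirteen

open Model

variable {F : Type*} [Field F]

/-- The raw equation of `X₁(13)` in the parameters `r = b / c`, `s = c² / (b - c)`. -/
def relThirteen (r s : F) : F :=
  r ^ 3 - r ^ 2 * s ^ 4 + 5 * r ^ 2 * s ^ 3 - 9 * r ^ 2 * s ^ 2 + 4 * r ^ 2 * s - 2 * r ^ 2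
    - r * s ^ 3 + 6 * r * s ^ 2 - 3 * r * s + r - s ^ 3

/-- The coordinate `x` of the model of `X₁(13)`. -/
def modelX (r s : F) : F := (r - 1) * (1 - s) / (r - s)

/-- The coordinate `y` of the model of `X₁(13)`. -/
def modelY (r s : F) : F := (s - r) / (1 - s)

/-- The Hauptmodul of `X₀(13)` as a function of `x`. -/
def hauptT (x : F) : F := -(x ^ 3 + 4 * x ^ 2 + x - 1) / (x * (x + 1))

/-- `t² + 6 t + 13`. -/
def dPoly (t : F) : F := t ^ 2 + 6 * t + 13

/-- The sextic with `j - 1728 = dPoly t * cPoly t ^ 2 / t`. -/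
def cPoly (t : F) : F :=
  t ^ 6 + 10 * t ^ 5 + 46 * t ^ 4 + 108 * t ^ 3 + 122 * t ^ 2 + 38 * t - 1

variable {r s : F}

theorem modelX_add_one (hrs : r - s ≠ 0) :
    modelX r s + 1 = (2 * r - r * s - 1) / (r - s) := by
  rw [modelX]; field_simp; ring

theorem modelX_mul_modelY (hrs : r - s ≠ 0) (hs : 1 - s ≠ 0) :
    modelX r s * modelY r s = 1 - r := by
  rw [modelX, modelY]; field_simp; ring

theorem onModel (hrs : r - s ≠ 0) (hs : 1 - s ≠ 0) (h : relThirteen r s = 0) :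
    OnModel (modelX r s) (modelY r s) := by
  have key : (modelY r s ^ 2 + A (modelX r s) * modelY r s - modelX r s ^ 2 - modelX r s)
      * ((r - s) ^ 2 * (1 - s) ^ 2) = (r - 1) * relThirteen r s := by
    rw [modelX, modelY, A, relThirteen]; field_simp; ring
  rw [h, mul_zero, mul_eq_zero] at key
  exact key.resolve_right (mul_ne_zero (pow_ne_zero 2 hrs) (pow_ne_zero 2 hs))

theorem s_mul_sq (hrs : r - s ≠ 0) (hs : 1 - s ≠ 0) (h : relThirteen r s = 0) :
    s * (modelX r s + 1) ^ 2 = modelX r s + modelY r s + 1 := by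
  have key : (s * (modelX r s + 1) ^ 2 - (modelX r s + modelY r s + 1))
      * ((r - s) ^ 2 * (1 - s)) = relThirteen r s := by
    rw [modelX, modelY, relThirteen]; field_simp; ring
  rw [h, mul_eq_zero] at key
  exact sub_eq_zero.1 (key.resolve_right (mul_ne_zero (pow_ne_zero 2 hrs) hs))

theorem b_eq_bn (hrs : r - s ≠ 0) (hs : 1 - s ≠ 0) (hN : 2 * r - r * s - 1 ≠ 0)
    (h : relThirteen r s = 0) :
    r * s * (r - 1) = bn (modelX r s) (modelY r s) / (modelX r s + 1) := by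
  have hR := onModel hrs hs h
  have hs2 := s_mul_sq hrs hs h
  have hxy := modelX_mul_modelY hrs hs
  have hx1 : modelX r s + 1 ≠ 0 := by rw [modelX_add_one hrs]; exact div_ne_zero hN hrs
  generalize modelX r s = x at *
  generalize modelY r s = y at *
  obtain rfl : r = 1 - x * y := by linear_combination hxy
  rw [eq_div_iff hx1]
  apply mul_right_cancel₀ hx1
  simp only [OnModel, A, bn] at *
  linear_combination ((1 - x * y) * (-(x * y))) * hs2 +
    (-x ^ 5 - x ^ 4 + x ^ 3 + x ^ 2 * y - x) * hR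

theorem c_eq_cn (hrs : r - s ≠ 0) (hs : 1 - s ≠ 0) (hN : 2 * r - r * s - 1 ≠ 0)
    (h : relThirteen r s = 0) :
    s * (r - 1) = cn (modelX r s) (modelY r s) / (modelX r s + 1) ^ 2 := by
  have hR := onModel hrs hs h
  have hs2 := s_mul_sq hrs hs h
  have hxy := modelX_mul_modelY hrs hs
  have hx1 : modelX r s + 1 ≠ 0 := by rw [modelX_add_one hrs]; exact div_ne_zero hN hrs
  generalize modelX r s = x at *
  generalize modelY r s = y at *
  obtain rfl : r = 1 - x * y := by linear_combination hxy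
  rw [eq_div_iff (pow_ne_zero 2 hx1)]
  simp only [OnModel, A, cn] at *
  linear_combination (-(x * y)) * hs2 + (-x) * hR

theorem modelX_double {r' s' : F} (hrs : r - s ≠ 0) (hr1 : r - 1 ≠ 0) (hs : 1 - s ≠ 0)
    (hs0 : s ≠ 0) (hN : 2 * r - r * s - 1 ≠ 0)
    (hG : r * (1 - s) ^ 3 - s ^ 2 * (2 * r - r * s - 1) ≠ 0)
    (h : relThirteen r s = 0)
    (hr' : r' = r * (1 - s) ^ 3 / (s ^ 2 * (2 * r - r * s - 1)))
    (hs' : s' = (2 * r - r * s - 1) ^ 2 /
      ((r - 1) * (r * (1 - s) ^ 3 - s ^ 2 * (2 * r - r * s - 1))))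
    (hrs' : r' - s' ≠ 0) :
    modelX r' s' = -(modelX r s + 1) / modelX r s := by
  have hR2 : s ^ 2 * (2 * r - r * s - 1) ≠ 0 := mul_ne_zero (pow_ne_zero 2 hs0) hN
  have hS2 : (r - 1) * (r * (1 - s) ^ 3 - s ^ 2 * (2 * r - r * s - 1)) ≠ 0 := mul_ne_zero hr1 hG
  have hx : modelX r s ≠ 0 := div_ne_zero (mul_ne_zero hr1 hs) hrs
  subst hr' hs'
  rw [div_sub_div _ _ hR2 hS2, div_ne_zero_iff] at hrs'
  rw [modelX, div_sub_one hR2, one_sub_div hS2, div_mul_div_comm, div_sub_div _ _ hR2 hS2,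
    div_div_div_cancel_right₀ (mul_ne_zero hR2 hS2), modelX_add_one hrs, modelX, ← neg_div,
    div_div_div_cancel_right₀ hrs, div_eq_div_iff hrs'.1 (mul_ne_zero hr1 hs)]
  simp only [relThirteen] at h
  linear_combination (-r + s ^ 2 - s + 1) * h

theorem hauptT_double {x : F} (hx : x ≠ 0) (hx1 : x + 1 ≠ 0) :
    hauptT (-(x + 1) / x) = hauptT x := by
  have e : -(x + 1) / x + 1 = -(1 / x) := by field_simp; ring
  rw [hauptT, hauptT, e]
  field_simp
  ring

theorem invariants_eq {x y b c : F} (hx : x ≠ 0) (hx1 : x + 1 ≠ 0) (h : OnModel x y)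
    (hb : b = bn x y / (x + 1)) (hc : c = cn x y / (x + 1) ^ 2) :
    (-((1 - c) ^ 2 - 4 * b) ^ 3 - 36 * ((1 - c) ^ 2 - 4 * b) * b * (1 - c) - 216 * b ^ 2) ^ 2
        * hauptT x
      = b ^ 3 * (((1 - c) ^ 2 - 4 * b) ^ 2 + 8 * (1 - c) ^ 3 - 27 * b
          - 9 * ((1 - c) ^ 2 - 4 * b) * (1 - c)) * dPoly (hauptT x) * cPoly (hauptT x) ^ 2 ∧
      b ^ 3 * (((1 - c) ^ 2 - 4 * b) ^ 2 + 8 * (1 - c) ^ 3 - 27 * b
          - 9 * ((1 - c) ^ 2 - 4 * b) * (1 - c))
        = -(L x y ^ 2 * K x * x ^ 13) / (x + 1) ^ 11 := by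
  have hA1 : A1n x y = (x + 1) ^ 2 - cn x y := by simp only [A1n, cn]; ring
  have ha1 : 1 - c = A1n x y / (x + 1) ^ 2 := by rw [hc, hA1]; field_simp
  have hb2 : (1 - c) ^ 2 - 4 * b = B2 x y / (x + 1) ^ 4 := by
    rw [ha1, hb, ← b2n_eq h]; field_simp
  have hc6 : -((1 - c) ^ 2 - 4 * b) ^ 3 - 36 * ((1 - c) ^ 2 - 4 * b) * b * (1 - c) - 216 * b ^ 2
      = w x y * L x y * Cn x / (x + 1) ^ 12 := by
    rw [hb2, ha1, hb, wL h, ← c6n_factor_aux h, ← c6n_eq h, ← b2n_sq h]; field_simp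
  have hD : b ^ 3 * (((1 - c) ^ 2 - 4 * b) ^ 2 + 8 * (1 - c) ^ 3 - 27 * b
      - 9 * ((1 - c) ^ 2 - 4 * b) * (1 - c))
      = -(L x y ^ 2 * K x * x ^ 13) / (x + 1) ^ 11 := by
    rw [hb2, ha1, hb, L_sq h, ← disc_factor_aux h, ← qn_eq h, ← bn_cube h, ← b2n_sq h]
    field_simp
  have ht : hauptT x = -K x / (x * (x + 1)) := rfl
  have hd : dPoly (hauptT x) = w x y ^ 2 / (x * (x + 1)) ^ 2 := by
    rw [dPoly, ht, eq_div_iff (pow_ne_zero 2 (mul_ne_zero hx hx1))]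
    field_simp
    simp only [OnModel, A, K, w] at *
    linear_combination -4 * h
  have hC : cPoly (hauptT x) = Cn x / (x * (x + 1)) ^ 6 := by
    rw [cPoly, ht, eq_div_iff (pow_ne_zero 6 (mul_ne_zero hx hx1))]
    field_simp
    simp only [K, Cn]
    ring
  refine ⟨?_, hD⟩
  rw [hc6, hD, hd, hC, ht]
  field_simp

end Fermat.Agent.Mazur.Thirteen
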