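import Fermat.Agent.Mazur.Thirteen.Param
import Fermat.Agent.Mazur.Small.TateInvariants

/-!
# A point of order 13 and the Hauptmodul of `X₀(13)`
-/

set_option autoImplicit false

open WeierstrassCurve WeierstrassCurve.Affine WeierstrassCurve.Affine.Point

namespace Fermat.Agent.Mazur.Thirteen

open Fermat.Agent.Mazur.Small

variable {F : Type*} [Field F] {W : WeierstrassCurve.Affine F}

/-- The Hauptmodul as a function of the Tate invariants `(b, c)`. -/
def hauptBC (b c : F) : F := hauptT (modelX (b / c) (c ^ 2 / (b - c)))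

/-- The coordinate on `X₀(13)` attached to a point of order 13. -/
def pointThirteen : W.Point → F
  | .zero => 0
  | .some x y _ => hauptBC (tateB W x y) (tateC W x y)

lemma pointThirteen_some {x y : F} (h : W.Nonsingular x y) :
    pointThirteen (Point.some _ _ h) = hauptBC (tateB W x y) (tateC W x y) := rfl

variable [DecidableEq F]

lemma nsmul_ne_zero {P : W.Point} (hP : P ≠ 0) (h13 : (13 : ℕ) • P = 0)
    {k : ℕ} (hk : ¬ 13 ∣ k) : k • P ≠ 0 := by
  have : Fact (Nat.Prime 13) := ⟨by norm_num⟩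
  intro h
  exact hk (addOrderOf_eq_prime h13 hP ▸ addOrderOf_dvd_of_nsmul_eq_zero h)

/-- Adding `P` in the coordinates of the Tate normal form. -/
lemma exists_step {x y u b c : F} (h : W.Nonsingular x y) (h13 : (13 : ℕ) • Point.some _ _ h = 0)
    (hu : u ≠ 0) (e1 : tateA1 W x y = u * (1 - c)) (e2 : tateA2 W x y = -b * u ^ 2)
    {k : ℕ} {X Y : F} (hk : 2 ≤ k) (hk' : k ≤ 11)
    (hQ : ∃ hQ : W.Nonsingular (x + u ^ 2 * X) (y + tateLam W x y * u ^ 2 * X + u ^ 3 * Y),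
      k • Point.some _ _ h = Point.some _ _ hQ)
    (e3 : tateA3 W x y = -b * u ^ 3) :
    X ≠ 0 ∧ ∀ X' Y', X' = (Y / X) ^ 2 + (1 - c) * (Y / X) + b - X →
      Y' = -(Y / X + (1 - c)) * X' + b →
      ∃ hQ : W.Nonsingular (x + u ^ 2 * X') (y + tateLam W x y * u ^ 2 * X' + u ^ 3 * Y'),
        (k + 1) • Point.some _ _ h = Point.some _ _ hQ := by
  obtain ⟨hQn, hQe⟩ := hQ
  have hX : X ≠ 0 := by
    rintro rfl
    rcases (X_eq_iff (h₁ := hQn) (h₂ := h)).1 (by ring) with he | he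
    · refine nsmul_ne_zero (some_ne_zero h) h13 (k := k - 1) (by omega) ?_
      have : (k - 1 + 1) • Point.some _ _ h = Point.some _ _ h := by
        rw [Nat.sub_add_cancel (by omega), hQe, he]
      rwa [succ_nsmul, add_eq_right] at this
    · refine nsmul_ne_zero (some_ne_zero h) h13 (k := k + 1) (by omega) ?_
      rw [succ_nsmul, hQe, he, neg_add_cancel]
  refine ⟨hX, fun X' Y' hX' hY' => ?_⟩
  have hne : x + u ^ 2 * X ≠ x := by simp [hu, hX]
  have hxy : ¬(x + u ^ 2 * X = x ∧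
      y + tateLam W x y * u ^ 2 * X + u ^ 3 * Y = W.negY x y) := fun hh => hne hh.1
  have hl : W.slope (x + u ^ 2 * X) x (y + tateLam W x y * u ^ 2 * X + u ^ 3 * Y) y =
      tateLam W x y + u * (Y / X) := by
    rw [slope_of_X_ne hne]; field_simp; ring
  have hx3 : W.addX (x + u ^ 2 * X) x
      (W.slope (x + u ^ 2 * X) x (y + tateLam W x y * u ^ 2 * X + u ^ 3 * Y) y) =
      x + u ^ 2 * X' := by
    rw [hl, addX, hX']
    generalize Y / X = q
    generalize hL : tateLam W x y = l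
    simp only [tateA1, tateA2, hL] at e1 e2
    linear_combination (u * q) * e1 - e2
  have hy3 : W.addY (x + u ^ 2 * X) x (y + tateLam W x y * u ^ 2 * X + u ^ 3 * Y)
      (W.slope (x + u ^ 2 * X) x (y + tateLam W x y * u ^ 2 * X + u ^ 3 * Y) y) =
      y + tateLam W x y * u ^ 2 * X' + u ^ 3 * Y' := by
    have hq : X * (Y / X) = Y := mul_div_cancel₀ _ hX
    rw [addY, negAddY, hx3, hl, negY, hY']
    generalize Y / X = q at hq ⊢
    generalize hL : tateLam W x y = l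
    simp only [tateA1, tateA3, hL] at e1 e3
    linear_combination (-u ^ 2 * X') * e1 - e3 + u ^ 3 * hq
  refine ⟨hx3 ▸ hy3 ▸ nonsingular_add hQn h hxy, ?_⟩
  rw [succ_nsmul, hQe, add_some hxy]
  simp only [Point.some.injEq]
  exact ⟨hx3, hy3⟩

/-- The parameters of a point of order 13. -/
lemma thirteen_parameters {x y : F} (h : W.Nonsingular x y)
    (h13 : (13 : ℕ) • Point.some _ _ h = 0) :
    ∃ u r s : F, u ≠ 0 ∧ r ≠ 0 ∧ s ≠ 0 ∧ r - 1 ≠ 0 ∧ 1 - s ≠ 0 ∧ r - s ≠ 0 ∧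
      relThirteen r s = 0 ∧ tateA3 W x y ≠ 0 ∧
      tateB W x y = r * s * (r - 1) ∧ tateC W x y = s * (r - 1) ∧
      r = tateB W x y / tateC W x y ∧
      s = tateC W x y ^ 2 / (tateB W x y - tateC W x y) ∧
      tateA1 W x y = u * (1 - s * (r - 1)) ∧
      tateA2 W x y = -(r * s * (r - 1)) * u ^ 2 ∧
      tateA3 W x y = -(r * s * (r - 1)) * u ^ 3 := by
  have hP := some_ne_zero h
  have h3 : tateA3 W x y ≠ 0 := tateA3_ne_zero h (nsmul_ne_zero hP h13 (by norm_num))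
  have h2 : tateA2 W x y ≠ 0 := tateA2_ne_zero h h3 (nsmul_ne_zero hP h13 (by norm_num))
  obtain ⟨u, b, c, hu, hb, hB, hC, e1, e2, e3⟩ := exists_tate_parameters W x y h3 h2
  have q2 : ∃ hQ : W.Nonsingular (x + u ^ 2 * b)
      (y + tateLam W x y * u ^ 2 * b + u ^ 3 * (b * c)),
      (2 : ℕ) • Point.some _ _ h = Point.some _ _ hQ := by
    obtain ⟨hd, ed⟩ := exists_double h h3
    have hx2 : tateX2 W x y = x + u ^ 2 * b := by rw [tateX2, e2]; ring
    have hy2 : tateY2 W x y = y + tateLam W x y * u ^ 2 * b + u ^ 3 * (b * c) := by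
      rw [tateY2, e1, e2, e3]; ring
    exact ⟨hx2 ▸ hy2 ▸ hd, by rw [ed]; simp only [Point.some.injEq]; exact ⟨hx2, hy2⟩⟩
  obtain ⟨-, s3⟩ := exists_step h h13 hu e1 e2 (by norm_num) (by norm_num) q2 e3
  have q3 := s3 c (b - c) (by field_simp; ring) (by field_simp; ring)
  obtain ⟨hc, s4⟩ := exists_step h h13 hu e1 e2 (by norm_num) (by norm_num) q3 e3
  obtain ⟨r, rfl⟩ : ∃ r, b = r * c := ⟨b / c, (div_mul_cancel₀ _ hc).symm⟩
  have q4 := s4 (r * (r - 1)) (-(r - c) * (r * (r - 1)) + r * c) (by field_simp; ring)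
    (by field_simp; ring)
  obtain ⟨h4, s5⟩ := exists_step h h13 hu e1 e2 (by norm_num) (by norm_num) q4 e3
  have hr : r ≠ 0 := left_ne_zero_of_mul h4
  have hr1 : r - 1 ≠ 0 := right_ne_zero_of_mul h4
  obtain ⟨s, rfl⟩ : ∃ s, c = s * (r - 1) := ⟨c / (r - 1), (div_mul_cancel₀ _ hr1).symm⟩
  have hs : s ≠ 0 := left_ne_zero_of_mul hc
  have q5 := s5 (r * s * (s - 1)) (r * s ^ 2 * (r - s)) (by field_simp; ring)
    (by field_simp; ring)
  obtain ⟨h5, s6⟩ := exists_step h h13 hu e1 e2 (by norm_num) (by norm_num) q5 e3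
  have hs1 : s - 1 ≠ 0 := right_ne_zero_of_mul h5
  set Y6 := -(s * (r - s) / (s - 1) + (1 - s * (r - 1))) * (s * (r - 1) * (r - s) / (s - 1) ^ 2)
    + r * (s * (r - 1)) with hY6
  have q6 := s6 (s * (r - 1) * (r - s) / (s - 1) ^ 2) Y6 (by field_simp; ring)
    (by rw [hY6]; field_simp)
  obtain ⟨h6, s7⟩ := exists_step h h13 hu e1 e2 (by norm_num) (by norm_num) q6 e3
  have hrs : r - s ≠ 0 := by
    intro h0; exact h6 (by rw [h0]; simp)
  obtain ⟨hQ6, eQ6⟩ := q6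
  obtain ⟨hQ7, eQ7⟩ := s7 _ _ rfl rfl
  have hneg : Point.some _ _ hQ7 = -Point.some _ _ hQ6 := by
    rw [eq_neg_iff_add_eq_zero, ← eQ7, ← eQ6, ← add_nsmul]; exact h13
  have hx7 := (X_eq_iff (h₁ := hQ7) (h₂ := hQ6)).2 (Or.inr hneg)
  rw [add_right_inj, mul_right_inj' (pow_ne_zero 2 hu)] at hx7
  have hrel : relThirteen r s = 0 := by
    have key : ((Y6 / (s * (r - 1) * (r - s) / (s - 1) ^ 2)) ^ 2
        + (1 - s * (r - 1)) * (Y6 / (s * (r - 1) * (r - s) / (s - 1) ^ 2))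
        + r * (s * (r - 1)) - s * (r - 1) * (r - s) / (s - 1) ^ 2
        - s * (r - 1) * (r - s) / (s - 1) ^ 2) * ((r - s) ^ 2 * (s - 1) ^ 2)
        = -s * (r - 1) * relThirteen r s := by
      rw [hY6, relThirteen]; field_simp; ring
    rw [hx7, sub_self, zero_mul, eq_comm, mul_eq_zero] at key
    exact key.resolve_left (mul_ne_zero (neg_ne_zero.2 hs) hr1)
  refine ⟨u, r, s, hu, hr, hs, hr1, fun h0 => hs1 (by linear_combination -h0), hrs, hrel, h3,
    by rw [hB]; ring, hC, ?_, ?_, e1, by rw [e2]; ring, by rw [e3]; ring⟩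
  · rw [hB, hC]; field_simp
  · rw [hB, hC]; field_simp

/-- The parameters of the double of a point of order 13. -/
lemma double_parameters {x y : F} (_h : W.Nonsingular x y) {u r s : F} (hu : u ≠ 0) (hr : r ≠ 0)
    (hs : s ≠ 0) (hr1 : r - 1 ≠ 0) (e1 : tateA1 W x y = u * (1 - s * (r - 1)))
    (e2 : tateA2 W x y = -(r * s * (r - 1)) * u ^ 2)
    (e3 : tateA3 W x y = -(r * s * (r - 1)) * u ^ 3) (h3 : tateA3 W x y ≠ 0) :
    tateB W (tateX2 W x y) (tateY2 W x y) = r * (1 - s) ^ 3 / (s ^ 4 * (r - 1)) ∧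
      tateC W (tateX2 W x y) (tateY2 W x y) = (2 * r - r * s - 1) / (s ^ 2 * (r - 1)) := by
  have h3' : tateA1 W x y * tateA2 W x y - tateA3 W x y = r * s ^ 2 * (r - 1) ^ 2 * u ^ 3 := by
    rw [e1, e2, e3]; ring
  have h3'0 : tateA1 W x y * tateA2 W x y - tateA3 W x y ≠ 0 :=
    h3' ▸ mul_ne_zero (mul_ne_zero (mul_ne_zero hr (pow_ne_zero 2 hs)) (pow_ne_zero 2 hr1))
      (pow_ne_zero 3 hu)
  have hμ : u * ((r - 1) * (1 + s)) = (tateA2 W x y ^ 2 - tateA1 W x y ^ 2 * tateA2 W x y +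
      tateA1 W x y * tateA3 W x y) / (tateA1 W x y * tateA2 W x y - tateA3 W x y) := by
    rw [h3', e1, e2, e3]; field_simp; ring
  constructor
  · rw [tateB, tateA3_double, tateA2_double W x y h3 h3'0 _ hμ, h3', e1, e2]
    field_simp
    ring
  · rw [tateC, tateA3_double, tateA1_double W x y h3 h3'0, tateA2_double W x y h3 h3'0 _ hμ,
      ← hμ, h3', e1, e2]
    field_simp
    ring

/-- Nonvanishing of `2r - rs - 1` and the invariance of `modelX` up to the order three symmetry. -/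
lemma modelX_two_nsmul {x y : F} (h : W.Nonsingular x y)
    (h13 : (13 : ℕ) • Point.some _ _ h = 0) {u r s : F} (hu : u ≠ 0) (hr : r ≠ 0) (hs : s ≠ 0)
    (hr1 : r - 1 ≠ 0) (hs1 : 1 - s ≠ 0) (hrs : r - s ≠ 0) (hrel : relThirteen r s = 0)
    (e1 : tateA1 W x y = u * (1 - s * (r - 1)))
    (e2 : tateA2 W x y = -(r * s * (r - 1)) * u ^ 2)
    (e3 : tateA3 W x y = -(r * s * (r - 1)) * u ^ 3) (h3 : tateA3 W x y ≠ 0) :
    2 * r - r * s - 1 ≠ 0 ∧ pointThirteen ((2 : ℕ) • Point.some _ _ h) =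
      hauptT (-(modelX r s + 1) / modelX r s) := by
  obtain ⟨hd, ed⟩ := exists_double h h3
  obtain ⟨hB, hC⟩ := double_parameters h hu hr hs hr1 e1 e2 e3 h3
  have h13' : (13 : ℕ) • Point.some _ _ hd = 0 := by
    rw [← ed, smul_comm, h13, smul_zero]
  obtain ⟨u', r', s', -, hr', hs', hr1', -, hrs', -, -, hB', hC', er', es', -⟩ :=
    thirteen_parameters hd h13'
  have hC0 : tateC W (tateX2 W x y) (tateY2 W x y) ≠ 0 := hC' ▸ mul_ne_zero hs' hr1'
  have hN : 2 * r - r * s - 1 ≠ 0 := fun h0 => hC0 (by rw [hC, h0, zero_div])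
  refine ⟨hN, ?_⟩
  have hBC : tateB W (tateX2 W x y) (tateY2 W x y) - tateC W (tateX2 W x y) (tateY2 W x y) =
      (r * (1 - s) ^ 3 - s ^ 2 * (2 * r - r * s - 1)) / (s ^ 4 * (r - 1)) := by
    rw [hB, hC]; field_simp
  have hG : r * (1 - s) ^ 3 - s ^ 2 * (2 * r - r * s - 1) ≠ 0 := by
    intro h0
    rw [h0, zero_div, hB', hC'] at hBC
    exact mul_ne_zero (mul_ne_zero hs' hr1') hr1' (by linear_combination hBC)
  rw [ed, pointThirteen_some, hauptBC, ← er', ← es']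
  congr 1
  refine modelX_double hrs hr1 hs1 hs hN hG hrel ?_ ?_ hrs'
  · rw [er', hB, hC]; field_simp
  · rw [es', hBC, hC]; field_simp

/-- Invariance of the Hauptmodul under doubling. -/
lemma pointThirteen_two_nsmul {P : W.Point} (hP : P ≠ 0) (h13 : (13 : ℕ) • P = 0) :
    pointThirteen ((2 : ℕ) • P) = pointThirteen P := by
  rcases P with _ | ⟨x, y, h⟩
  · exact absurd rfl hP
  obtain ⟨u, r, s, hu, hr, hs, hr1, hs1, hrs, hrel, h3, hB, hC, er, es, e1, e2, e3⟩ :=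
    thirteen_parameters h h13
  obtain ⟨hN, he⟩ := modelX_two_nsmul h h13 hu hr hs hr1 hs1 hrs hrel e1 e2 e3 h3
  rw [he, pointThirteen_some, hauptBC, ← er, ← es]
  refine hauptT_double (div_ne_zero (mul_ne_zero hr1 hs1) hrs) ?_
  rw [modelX_add_one hrs]
  exact div_ne_zero hN hrs

lemma pointThirteen_two_pow_nsmul {P : W.Point} (hP : P ≠ 0) (h13 : (13 : ℕ) • P = 0) (i : ℕ) :
    pointThirteen (2 ^ i • P) = pointThirteen P := by
  induction i with
  | zero => rw [pow_zero, one_nsmul]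
  | succ i ih =>
    rw [pow_succ, mul_nsmul, pointThirteen_two_nsmul ?_ ?_, ih]
    · exact nsmul_ne_zero hP h13 fun hd => by
        have := (by norm_num : Nat.Prime 13).dvd_of_dvd_pow hd
        omega
    · rw [smul_comm, h13, smul_zero]

lemma pointThirteen_nsmul {P : W.Point} (hP : P ≠ 0) (h13 : (13 : ℕ) • P = 0) {k : ℕ}
    (hk : k • P ≠ 0) : pointThirteen (k • P) = pointThirteen P := by
  have hpow : ∀ m : ℕ, m < 13 → m ≠ 0 → ∃ i < 12, 2 ^ i % 13 = m := by decide +kernel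
  rw [nsmul_eq_mod_nsmul k h13] at hk ⊢
  obtain ⟨i, -, hi⟩ := hpow (k % 13) (Nat.mod_lt _ (by norm_num))
    (fun h0 => hk (by rw [h0, zero_nsmul]))
  rw [← hi, ← nsmul_eq_mod_nsmul _ h13, pointThirteen_two_pow_nsmul hP h13]

/-- `c₆` in the normalised coordinates. -/
lemma c6_eq {x y : F} (h3 : tateA3 W x y ≠ 0) (h : W.Equation x y) :
    W.c₆ = -(tateA1 W x y ^ 2 + 4 * tateA2 W x y) ^ 3
      + 36 * (tateA1 W x y ^ 2 + 4 * tateA2 W x y) * (tateA1 W x y * tateA3 W x y)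
      - 216 * tateA3 W x y ^ 2 := by
  have ha4 : W.a₄ = tateLam W x y * tateA3 W x y - 3 * x ^ 2 - 2 * W.a₂ * x + W.a₁ * y := by
    rw [tateLam, div_mul_cancel₀ _ h3]; ring
  have ha6 : W.a₆ = y ^ 2 + W.a₁ * x * y + W.a₃ * y - x ^ 3 - W.a₂ * x ^ 2 - W.a₄ * x := by
    rw [equation_iff] at h; linear_combination -h
  generalize hl : tateLam W x y = l at ha4
  simp only [tateA1, tateA2, tateA3, hl] at ha4 ⊢
  simp only [WeierstrassCurve.c₆, WeierstrassCurve.b₂, WeierstrassCurve.b₄, WeierstrassCurve.b₆]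
  rw [ha6, ha4]; ring

lemma pointThirteen_relation {P : W.Point} (hP : P ≠ 0) (h13 : (13 : ℕ) • P = 0) :
    W.c₆ ^ 2 * pointThirteen P =
        W.Δ * dPoly (pointThirteen P) * cPoly (pointThirteen P) ^ 2 ∧
      (W.Δ ≠ 0 → pointThirteen P ≠ 0) := by
  rcases P with _ | ⟨x, y, h⟩
  · exact absurd rfl hP
  obtain ⟨u, r, s, hu, hr, hs, hr1, hs1, hrs, hrel, h3, hB, hC, er, es, e1, e2, e3⟩ :=
    thirteen_parameters h h13
  obtain ⟨hN, -⟩ := modelX_two_nsmul h h13 hu hr hs hr1 hs1 hrs hrel e1 e2 e3 h3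
  have hX : modelX r s ≠ 0 := div_ne_zero (mul_ne_zero hr1 hs1) hrs
  have hX1 : modelX r s + 1 ≠ 0 := modelX_add_one hrs ▸ div_ne_zero hN hrs
  obtain ⟨hI, hD⟩ := invariants_eq hX hX1 (onModel hrs hs1 hrel) (b_eq_bn hrs hs1 hN hrel)
    (c_eq_cn hrs hs1 hN hrel)
  rw [pointThirteen_some, hauptBC, ← er, ← es]
  have hΔ : W.Δ = u ^ 12 * ((r * s * (r - 1)) ^ 3 *
      (((1 - s * (r - 1)) ^ 2 - 4 * (r * s * (r - 1))) ^ 2 + 8 * (1 - s * (r - 1)) ^ 3
        - 27 * (r * s * (r - 1))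
        - 9 * ((1 - s * (r - 1)) ^ 2 - 4 * (r * s * (r - 1))) * (1 - s * (r - 1)))) := by
    rw [delta_eq W x y h3 h.1, e1, e2, e3]; ring
  refine ⟨?_, fun h0 ht => h0 ?_⟩
  · rw [c6_eq h3 h.1, hΔ, e1, e2, e3]
    linear_combination u ^ 12 * hI
  · have hK : Model.K (modelX r s) = 0 := by
      rw [hauptT, div_eq_zero_iff, neg_eq_zero] at ht
      simpa [Model.K] using ht.resolve_right (mul_ne_zero hX hX1)
    rw [hΔ, hD, hK]; simp

end Fermat.Agent.Mazur.Thirteen
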